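/-
GATE-M (S41) / S41-D-ASM (helper98).

The `(D)` package of helper35's `GM/End/Skeleton.levelRaise_of_leaves`
(`B`, `B2`, `hB`, `hB2`, `hadj`, `hTadj`) for `α := alphaP ℤ N q`, `β := betaP ℤ hqN` (helper91),
built from helper14's unimodular cup form `lamForm` on `Λ_M = parabolicHoms ℤ Γ₀(M) ℤ`:

* `B  := redForm p (lamForm at level N)`, `B2 := redForm p (lamForm at level N q)`;
* `hB`, `hB2` : `lamForm_bijective` + helper23's `redForm_left_nondeg`;
* the inner half of `hadj` (`⟨res x, z⟩ = ⟨x, cores z⟩`) : helper14's `lamForm_res_cores` at helper91's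
  `coresSys'` (transversal `r_x`, pairwise distinct mod `Γ₀(N q)` : proved here);
* the OUTER inputs stay hypotheses, in the exact shape (O1), (O2) of GRAPH v0 (board 3581):
  (O1) `⟨res_δ y, z⟩_{Nq} = ⟨y, cores_δ z⟩_N`,  (O2) `⟨T_{l0} x, y⟩_N = ⟨x, T_{l0} y⟩_N`.
-/
import Fermat.Agent.GM.Bridge.Form
import Fermat.Agent.GM.B.Main
import Fermat.Agent.GJ.J2.Lattice

set_option autoImplicit false

open scoped MatrixGroups
open CongruenceSubgroup Matrix Matrix.SpecialLinearGroup ModularCurve.Period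
open P2MW.S_ModularForm_heckeT_slash_eq_self_of_mem_Gamma0.ModularForm.HeckeSlashInvariance
open P2MW.S_ModularForm_heckeT_slash_eq_self_of_mem_Gamma0.ModularForm
open Fermat.Agent.S16_helper49 Fermat.Agent.GM.Amalgam Fermat.Agent.GM.B Fermat.Agent.GM.Bridge
  Fermat.Agent.GM.PD Fermat.Agent.GJ.J2.Lat

namespace Fermat.Agent.GM.Asm

/-- `Γ₀(M) \ SL₂(ℤ)` is finite (classical `Fintype`). -/
@[reducible] noncomputable def quotFintype (M : ℕ) [NeZero M] : Fintype (SL(2, ℤ) ⧸ Gamma0 M) :=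
  Subgroup.fintypeQuotientOfFiniteIndex

/-- classical decidable equality on the coset space -/
@[reducible] noncomputable def quotDecEq (M : ℕ) : DecidableEq (SL(2, ℤ) ⧸ Gamma0 M) := Classical.decEq _

attribute [local instance] quotFintype quotDecEq

theorem neg_one_mem_Gamma0 (M : ℕ) : (-1 : SL(2, ℤ)) ∈ Gamma0 M := by
  rw [Gamma0_mem]
  simp

/-- the unimodular cup form of level `M` on `Λ_M` (helper14's `lamForm` at `Γ₀(M)`) -/
noncomputable def lamB (M : ℕ) [NeZero M] : Lam M →ₗ[ℤ] Lam M →ₗ[ℤ] ℤ :=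
  lamForm (Γ := Gamma0 M) (neg_one_mem_Gamma0 M)

theorem lamB_bijective (M : ℕ) [NeZero M] : Function.Bijective (lamB M) :=
  lamForm_bijective (neg_one_mem_Gamma0 M)

/-- the mod `p` pairing of level `M` -/
noncomputable def lamBmod (M p : ℕ) [NeZero M] : Lam M →+ Lam M →+ ZMod p := redForm p (lamB M)

theorem lamBmod_apply (M p : ℕ) [NeZero M] (x y : Lam M) :
    lamBmod M p x y = ((lamB M x y : ℤ) : ZMod p) := rfl

theorem lamBmod_left_nondeg (M p : ℕ) [NeZero M] (x : Lam M) (hx : ∀ y, lamBmod M p x y = 0) :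
    ∃ z : Lam M, x = (p : ℤ) • z :=
  redForm_left_nondeg p (lamB M) (lamB_bijective M).2 (lamB_bijective M).1 x hx

section Inner

variable {N q : ℕ} [Fact q.Prime]

theorem Gamma0_mul_le (N q : ℕ) : Gamma0 (N * q) ≤ Gamma0 N := by
  intro g hg
  rw [Gamma0_mem] at hg ⊢
  have h : ((g 1 0 : ℤ) : ZMod (N * q)) = 0 := hg
  rw [ZMod.intCast_zmod_eq_zero_iff_dvd] at h
  rw [ZMod.intCast_zmod_eq_zero_iff_dvd]
  exact dvd_trans ⟨(q : ℤ), by push_cast; ring⟩ h

/-- the transversal `r_x` of helper91's `coresSys` is pairwise distinct modulo `Γ₀(N q)` -/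
theorem rC_distinct (hqN : ¬ q ∣ N) (hN : N ≠ 0) (b₀ d₀ : ℤ) (hbd : (q : ℤ) * d₀ - N * b₀ = 1)
    (x y : OnePoint (ZMod q))
    (h : ((rC N q b₀ d₀ hbd x : Gamma0 N) : SL(2, ℤ)) * ((rC N q b₀ d₀ hbd y : Gamma0 N) : SL(2, ℤ))⁻¹
      ∈ Gamma0 (N * q)) : x = y := by
  have hq : (q : ℕ).Prime := Fact.out
  have hq1 : (1 : ℤ) < q := by exact_mod_cast hq.one_lt
  have hNz : (N : ℤ) ≠ 0 := by exact_mod_cast hN
  rw [Gamma0_mem, ZMod.intCast_zmod_eq_zero_iff_dvd] at h
  -- `N q ∣ N * t` gives `q ∣ t`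
  have key : ∀ t : ℤ, ((N * q : ℕ) : ℤ) ∣ N * t → (q : ℤ) ∣ t := by
    intro t ht
    have h1 : (N : ℤ) * q ∣ N * t := by simpa using ht
    exact (mul_dvd_mul_iff_left hNz).1 h1
  have hnot : ¬ (q : ℤ) ∣ 1 := by
    intro h1
    have := Int.le_of_dvd one_pos h1
    omega
  have hnot' : ¬ (q : ℤ) ∣ -1 := by
    rw [dvd_neg]
    exact hnot
  induction x using OnePoint.rec with
  | infty =>
    induction y using OnePoint.rec with
    | infty => rfl
    | coe j =>
      exfalso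
      change ((N * q : ℕ) : ℤ) ∣ (((1 : Gamma0 N) : SL(2, ℤ)) * (repC N q b₀ d₀ hbd j.val)⁻¹) 1 0 at h
      have e : (((1 : Gamma0 N) : SL(2, ℤ)) * (repC N q b₀ d₀ hbd j.val)⁻¹) 1 0 = (N : ℤ) * (-1) := by
        rw [Subgroup.coe_one, one_mul, Matrix.SpecialLinearGroup.SL2_inv_expl]
        simp [repC]
      rw [e] at h
      exact hnot' (key _ h)
  | coe i =>
    induction y using OnePoint.rec with
    | infty =>
      exfalso
      change ((N * q : ℕ) : ℤ) ∣ ((repC N q b₀ d₀ hbd i.val) * ((1 : Gamma0 N) : SL(2, ℤ))⁻¹) 1 0 at h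
      have e : ((repC N q b₀ d₀ hbd i.val) * ((1 : Gamma0 N) : SL(2, ℤ))⁻¹) 1 0 = (N : ℤ) * 1 := by
        rw [Subgroup.coe_one, inv_one, mul_one]
        simp [repC]
      rw [e] at h
      exact hnot (key _ h)
    | coe j =>
      change ((N * q : ℕ) : ℤ) ∣ ((repC N q b₀ d₀ hbd i.val) * (repC N q b₀ d₀ hbd j.val)⁻¹) 1 0 at h
      have e : ((repC N q b₀ d₀ hbd i.val) * (repC N q b₀ d₀ hbd j.val)⁻¹) 1 0
          = (N : ℤ) * ((N : ℤ) * ((j.val : ℤ) - (i.val : ℤ))) := by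
        rw [Matrix.SpecialLinearGroup.SL2_inv_expl]
        simp [repC, Matrix.mul_apply, Fin.sum_univ_two]
        ring
      rw [e] at h
      have h2 : (q : ℤ) ∣ (N : ℤ) * ((j.val : ℤ) - (i.val : ℤ)) := key _ h
      have hcop : IsCoprime (q : ℤ) (N : ℤ) :=
        Nat.isCoprime_iff_coprime.mpr ((Nat.Prime.coprime_iff_not_dvd hq).mpr hqN)
      have h3 : (q : ℤ) ∣ (j.val : ℤ) - (i.val : ℤ) := hcop.dvd_of_dvd_mul_left h2
      have h4 : ((j.val : ℤ) : ZMod q) = ((i.val : ℤ) : ZMod q) := by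
        have := (ZMod.intCast_zmod_eq_zero_iff_dvd _ q).2 h3
        push_cast at this
        push_cast
        exact sub_eq_zero.1 this
      haveI : NeZero q := ⟨hq.ne_zero⟩
      have h5 : j = i := by
        have := h4
        push_cast at this
        rwa [ZMod.natCast_zmod_val, ZMod.natCast_zmod_val] at this
      rw [h5]

end Inner

section Package

variable {N q : ℕ} [NeZero N] [NeZero (N * q)] [Fact q.Prime]

/-- **inner adjointness** `⟨res x, z⟩_{Nq} = ⟨x, cores z⟩_N` for helper91's `resP`, `coresP` -/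
theorem lamB_resP_coresP (hqN : ¬ q ∣ N) (x : Lam N) (z : Lam (N * q)) :
    lamB (N * q) (resP ℤ N q x) z = lamB N x (coresP ℤ hqN z) := by
  have hle := Gamma0_mul_le N q
  haveI : Nonempty (coresSys' hqN).ι := ⟨(OnePoint.infty : OnePoint (ZMod q))⟩
  refine lamForm_res_cores hle (neg_one_mem_Gamma0 (N * q)) embR_injective (coresSys' hqN)
    (fun i => ((rC N q (bez hqN).1 (bez hqN).2 (bez_spec hqN) i : Gamma0 N) : SL(2, ℤ)))
    (fun i => ?_) (fun i => SetLike.coe_mem _)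
    (fun i j h => rC_distinct hqN (NeZero.ne N) _ _ _ i j h)
    x (resP ℤ N q x) (fun γ' => ?_) z (coresP ℤ hqN z) rfl
  · show (dlt q)⁻¹ * embR ((gC N q (bez hqN).1 (bez hqN).2 (bez_spec hqN) i : Gamma0 N) : SL(2, ℤ))
        * heckeRep q i = _
    rw [mul_assoc, inv_mul_eq_iff_eq_mul]
    exact (dlt_mul_rC N q _ _ (bez_spec hqN) i).symm
  · rw [resP_coe, res_apply]
    congr 2
    exact Subtype.ext (degenOne_coe γ')

/-- **the `(D)` package of `GM/End/Skeleton.levelRaise_of_leaves`** for `α = alphaP`, `β = betaP`,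
from the two OUTER adjointness statements (O1), (O2) over `ℤ`. -/
theorem dPackage (p : ℕ) (hqN : ¬ q ∣ N) (l0 : Nat.Primes)
    (hO1 : ∀ (y : Lam N) (z : Lam (N * q)),
      lamB (N * q) (resDP ℤ N q y) z = lamB N y (coresDP ℤ hqN z))
    (hO2 : ∀ x y : Lam N, lamB N (latT N l0 x) y = lamB N x (latT N l0 y)) :
    ∃ (B : Lam N →+ Lam N →+ ZMod p) (B2 : Lam (N * q) →+ Lam (N * q) →+ ZMod p),
      (∀ x : Lam N, (∀ y, B x y = 0) → ∃ z, x = (p : ℤ) • z) ∧
      (∀ w : Lam (N * q), (∀ z, B2 w z = 0) → ∃ z, w = (p : ℤ) • z) ∧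
      (∀ (x y : Lam N) (z : Lam (N * q)),
        B2 (alphaP ℤ N q (x, y)) z = B x (betaP ℤ hqN z).1 + B y (betaP ℤ hqN z).2) ∧
      (∀ x y : Lam N, B (latT N l0 x) y = B x (latT N l0 y)) := by
  refine ⟨lamBmod N p, lamBmod (N * q) p, lamBmod_left_nondeg N p, lamBmod_left_nondeg (N * q) p,
    ?_, ?_⟩
  · intro x y z
    rw [alphaP_apply, betaP_apply, map_add, AddMonoidHom.add_apply, lamBmod_apply, lamBmod_apply,
      lamBmod_apply, lamBmod_apply, lamB_resP_coresP hqN, hO1]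
  · intro x y
    rw [lamBmod_apply, lamBmod_apply, hO2]

end Package

end Fermat.Agent.GM.Asm
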